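import Mathlib
import Fermat.Agent.LT.T7.H893.SupplyFamSpec

/-!
# Row LT, tower T7, leaf T7.L2.1.F3 `OpUpC` (owner helper281): THE CUT -- Spec and PROVED top

OFF-MAIN.  Definitions, frozen Props of six sub-leaves, PROVED top.  No `sorry`, nothing assumed.
ADDITIVE (new names only, all ending in `281`).  Vocabulary: `T7/Level2.lean` (15516646),
`T7/H893/SupplyFamSpec.lean` (32dee4c8).

    opUpC_of281 : RconvOpsC281 K' → TranslEigC281 K' → IwInvC281 K' → DblInvC281 K'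
                    → ShiftInvC281 K' → IndepC281 K' → H893.OpUpC K K'

Every sub-leaf is a statement about ONE number field (no extension, no eigensystem `Φ`).

* **A `RconvOpsC281`** (analysis): for a frame, continuous compactly supported `φ₁, φ₂` and a
  continuous `ψ`:
  `R(φ₁ ⋆ lsum Hg (regL w z H k m φ₂)) ψ = R(φ₁) (cosetOp Hg (shiftOp z k ((iwOp w H)^[m] (R(φ₂) ψ))))`
  (Fubini: asset `T5.H277.Rconv_Rconv277` helper32@5a6a5cf2e; left invariance of the measure).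
* **B `TranslEigC281`** (general stability): for a finite set `T` of elements which are trivial
  at infinity and in `GL₂(𝒪_v)` at every `v ∤ 𝔫₀`, the operator `ψ ↦ c ∑_{t ∈ T} ψ(· t)` preserves
  `IsEigFn 𝔫₀ r l o · C` PROVIDED the image is right invariant under `U(𝔫₀)` and Iwahori
  invariant (continuity, bound, left invariance, `K_∞`, ray, positive scalars: elements trivial
  at infinity commute with elements trivial at the finite places; cuspidality: asset helper886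
  `T2/H886/CuspAlg.lean`; Hecke at `v ∤ 𝔫₀`: the conjugate `t⁻¹ H t` of a Hecke coset system is a
  Hecke coset system; sphere means: continuity of the spheres, asset helper472
  `T2/H472/LocCont.lean`).
* **C `IwInvC281`**: the elements of an Iwahori coset system at `o 0 ∣ 𝔫₀` are good, and `iwOp`
  preserves the right `U(𝔫₀)`-invariance and the Iwahori invariance (asset helper340
  `T7/H340/IwKit.lean`: `isIwInv_iwOp340`, `iwSum_indep340`, `isIwCosetSystem_translate340`).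
* **D `DblInvC281`**: the same for `cosetOp Hg`, `Hg` a system of `U(𝔫₀) g U(𝔫₀) / U(𝔫₀)`,
  `g` trivial at infinity, at the `v ∤ 𝔫₀` and along the orbit.
* **S `ShiftInvC281`**: the same for `shiftOp z k`, `z` a scalar uniformiser at `o 0` (central),
  and independence of `z` on Iwahori invariant functions.
* **I `IndepC281`**: `iwOp (o 0) H ψ` does not depend on `H` for Iwahori invariant `ψ`
  (`iwOp_indep340`), `cosetOp Hg χ` does not depend on `Hg` for right `U(𝔫₀)`-invariant `χ`.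
-/

set_option autoImplicit false

open AutomorphicForm IsDedekindDomain NumberField MeasureTheory
open scoped ComplexConjugate

noncomputable section

namespace Fermat.Agent.LT.T7.H281

open Fermat.Agent.LT.H556 Fermat.Agent.LT.H556.A0 Fermat.Agent.LT.T7 Fermat.Agent.LT.T7.H893

attribute [local instance] Fermat.Agent.LT.T5.instMeasurableSpaceG

/-! ## 1. Vocabulary -/

section Vocab

variable {K : Type} [Field K] [NumberField K]

/-- `ψ` is right invariant under the level group `U(𝔫₀)`. -/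
def IsRInv281 (𝔫₀ : Ideal (𝓞 K)) (ψ : G K → ℂ) : Prop :=
  ∀ u : G K, InLevelGroup 𝔫₀ u → ∀ x : G K, ψ (x * u) = ψ x

/-- `t` is a GOOD translation for the level `𝔫₀`: trivial at infinity and in `GL₂(𝒪_v)` at every
finite place `v ∤ 𝔫₀`. -/
def IsGoodTransl281 (𝔫₀ : Ideal (𝓞 K)) (t : G K) : Prop :=
  (∀ w : InfinitePlace K, TrivAtInf w t) ∧
    ∀ v : HeightOneSpectrum (𝓞 K), ¬ v.asIdeal ∣ 𝔫₀ → IsIntegralAt v t ∧ IsIntegralAt v t⁻¹

/-- The operator `ψ ↦ c ∑_{t ∈ T} ψ(· t)`. -/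
def translOp281 (T : Finset (G K)) (c : ℂ) (ψ : G K → ℂ) : G K → ℂ :=
  fun x => c * ∑ t ∈ T, ψ (x * t)

end Vocab

/-! ## 2. The six sub-leaves -/

section Leaves

variable (K : Type) [Field K] [NumberField K]

/-- **SUB-LEAF A = RCONV-OPS** (analysis).  See the header. -/
def RconvOpsC281 : Prop :=
  ∀ (μ : Measure (G K)) (F : Set (G K)), T5.IsFrame μ F →
    ∀ φ₁ φ₂ ψ : G K → ℂ, Continuous φ₁ → HasCompactSupport φ₁ → Continuous φ₂ →
      HasCompactSupport φ₂ → Continuous ψ →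
    ∀ (w : HeightOneSpectrum (𝓞 K)) (Hg H : Finset (G K)) (z : G K) (k : ℤ) (m : ℕ) (x : G K),
      T5.Rconv μ (T5.conv μ φ₁ (lsum Hg (regL w z H k m φ₂))) ψ x
        = T5.Rconv μ φ₁ (cosetOp Hg (shiftOp z k ((iwOp w H)^[m] (T5.Rconv μ φ₂ ψ)))) x

/-- **SUB-LEAF B = TRANSL-EIG** (general stability).  See the header. -/
def TranslEigC281 : Prop :=
  ∀ (𝔫₀ : Ideal (𝓞 K)) (r : G K) (l : ℕ) (o : ℕ → HeightOneSpectrum (𝓞 K)), T5.IsRayGen r →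
    ∀ (T : Finset (G K)) (c : ℂ), (∀ t ∈ T, IsGoodTransl281 𝔫₀ t) →
    ∀ (ψ : G K → ℂ) (C : EigData K), IsEigFn 𝔫₀ r l o ψ C →
      IsRInv281 𝔫₀ (translOp281 T c ψ) → IsIwInv l o (translOp281 T c ψ) →
      IsEigFn 𝔫₀ r l o (translOp281 T c ψ) C

/-- **SUB-LEAF C = IW-INV.**  See the header. -/
def IwInvC281 : Prop :=
  ∀ (𝔫₀ : Ideal (𝓞 K)) (l : ℕ) (o : ℕ → HeightOneSpectrum (𝓞 K)), 0 < l →
    (∀ j < l, (o j).asIdeal ∣ 𝔫₀) →
    ∀ H : Finset (G K), IsIwCosetSystem (o 0) H →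
      (∀ h ∈ H, IsGoodTransl281 𝔫₀ h) ∧
      ∀ ψ : G K → ℂ, IsRInv281 𝔫₀ ψ → IsIwInv l o ψ →
        IsRInv281 𝔫₀ (iwOp (o 0) H ψ) ∧ IsIwInv l o (iwOp (o 0) H ψ)

/-- **SUB-LEAF D = DBL-INV.**  See the header. -/
def DblInvC281 : Prop :=
  ∀ (𝔫₀ : Ideal (𝓞 K)) (l : ℕ) (o : ℕ → HeightOneSpectrum (𝓞 K)),
    (∀ j < l, (o j).asIdeal ∣ 𝔫₀) →
    ∀ g : G K, (∀ w : InfinitePlace K, TrivAtInf w g) →
      (∀ v : HeightOneSpectrum (𝓞 K), (¬ v.asIdeal ∣ 𝔫₀ ∨ ∃ j < l, v = o j) → TrivAtFin v g) →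
    ∀ Hg : Finset (G K), IsDblCosetSystem 𝔫₀ g Hg →
      (∀ a ∈ Hg, IsGoodTransl281 𝔫₀ a) ∧
      ∀ χ : G K → ℂ, IsRInv281 𝔫₀ χ → IsIwInv l o χ →
        IsRInv281 𝔫₀ (cosetOp Hg χ) ∧ IsIwInv l o (cosetOp Hg χ)

/-- **SUB-LEAF S = SHIFT-INV.**  See the header. -/
def ShiftInvC281 : Prop :=
  ∀ (𝔫₀ : Ideal (𝓞 K)) (l : ℕ) (o : ℕ → HeightOneSpectrum (𝓞 K)), 0 < l →
    (∀ j < l, (o j).asIdeal ∣ 𝔫₀) →
    ∀ z : G K, IsScalarUniformizerAt (o 0) z → ∀ k : ℤ,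
      IsGoodTransl281 𝔫₀ (z ^ k) ∧
      (∀ ψ : G K → ℂ, IsRInv281 𝔫₀ ψ → IsRInv281 𝔫₀ (shiftOp z k ψ)) ∧
      (∀ ψ : G K → ℂ, IsIwInv l o ψ → IsIwInv l o (shiftOp z k ψ)) ∧
      ∀ z' : G K, IsScalarUniformizerAt (o 0) z' → ∀ ψ : G K → ℂ, IsIwInv l o ψ →
        ∀ x : G K, shiftOp z k ψ x = shiftOp z' k ψ x

/-- **SUB-LEAF I = INDEP.**  See the header. -/
def IndepC281 : Prop :=
  ∀ (𝔫₀ : Ideal (𝓞 K)) (l : ℕ) (o : ℕ → HeightOneSpectrum (𝓞 K)), 0 < l →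
    (∀ (H H' : Finset (G K)), IsIwCosetSystem (o 0) H → IsIwCosetSystem (o 0) H' →
      ∀ ψ : G K → ℂ, IsIwInv l o ψ → ∀ x : G K, iwOp (o 0) H ψ x = iwOp (o 0) H' ψ x) ∧
    ∀ (g : G K) (Hg Hg' : Finset (G K)), IsDblCosetSystem 𝔫₀ g Hg → IsDblCosetSystem 𝔫₀ g Hg' →
      ∀ χ : G K → ℂ, IsRInv281 𝔫₀ χ → ∀ x : G K, cosetOp Hg χ x = cosetOp Hg' χ x

end Leaves

/-! ## 3. The top -/

section Top

variable {K : Type} [Field K] [NumberField K]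

theorem isRInv_of_isEigFn281 {𝔫₀ : Ideal (𝓞 K)} {r : G K} {l : ℕ}
    {o : ℕ → HeightOneSpectrum (𝓞 K)} {ψ : G K → ℂ} {C : EigData K}
    (h : IsEigFn 𝔫₀ r l o ψ C) : IsRInv281 𝔫₀ ψ :=
  fun u hu x => h.inv.cusp.aut.level_inv u hu x

theorem iwOp_eq_translOp281 (w : HeightOneSpectrum (𝓞 K)) (H : Finset (G K)) (ψ : G K → ℂ) :
    iwOp w H ψ
      = translOp281 H (((Real.sqrt (Ideal.absNorm w.asIdeal : ℝ) : ℝ) : ℂ)⁻¹) ψ := rfl

theorem cosetOp_eq_translOp281 (H : Finset (G K)) (ψ : G K → ℂ) :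
    cosetOp H ψ = translOp281 H 1 ψ := by
  funext x
  simp only [cosetOp, translOp281, one_mul]

theorem shiftOp_eq_translOp281 [DecidableEq (G K)] (z : G K) (k : ℤ) (ψ : G K → ℂ) :
    shiftOp z k ψ = translOp281 {z ^ k} 1 ψ := by
  funext x
  simp only [shiftOp, translOp281, one_mul, Finset.sum_singleton]

/-- `iwOp` preserves the eigen-classes. -/
theorem isEigFn_iwOp281 (hB : TranslEigC281 K) (hC : IwInvC281 K) {𝔫₀ : Ideal (𝓞 K)} {r : G K}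
    {l : ℕ} {o : ℕ → HeightOneSpectrum (𝓞 K)} (hr : T5.IsRayGen r) (hl : 0 < l)
    (ho : ∀ j < l, (o j).asIdeal ∣ 𝔫₀) {H : Finset (G K)} (hH : IsIwCosetSystem (o 0) H)
    {ψ : G K → ℂ} {C : EigData K} (hψ : IsEigFn 𝔫₀ r l o ψ C) :
    IsEigFn 𝔫₀ r l o (iwOp (o 0) H ψ) C := by
  obtain ⟨hgood, hinv⟩ := hC 𝔫₀ l o hl ho H hH
  obtain ⟨h1, h2⟩ := hinv ψ (isRInv_of_isEigFn281 hψ) hψ.inv.iw
  rw [iwOp_eq_translOp281] at h1 h2 ⊢
  exact hB 𝔫₀ r l o hr H _ hgood ψ C hψ h1 h2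

/-- The iterates of `iwOp` preserve the eigen-classes. -/
theorem isEigFn_iwOp_iterate281 (hB : TranslEigC281 K) (hC : IwInvC281 K) {𝔫₀ : Ideal (𝓞 K)}
    {r : G K} {l : ℕ} {o : ℕ → HeightOneSpectrum (𝓞 K)} (hr : T5.IsRayGen r) (hl : 0 < l)
    (ho : ∀ j < l, (o j).asIdeal ∣ 𝔫₀) {H : Finset (G K)} (hH : IsIwCosetSystem (o 0) H)
    {ψ : G K → ℂ} {C : EigData K} (hψ : IsEigFn 𝔫₀ r l o ψ C) (m : ℕ) :
    IsEigFn 𝔫₀ r l o ((iwOp (o 0) H)^[m] ψ) C := by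
  induction m with
  | zero => exact hψ
  | succ m ih =>
    rw [Function.iterate_succ_apply']
    exact isEigFn_iwOp281 hB hC hr hl ho hH ih

/-- `shiftOp` preserves the eigen-classes. -/
theorem isEigFn_shiftOp281 (hB : TranslEigC281 K) (hS : ShiftInvC281 K) {𝔫₀ : Ideal (𝓞 K)}
    {r : G K} {l : ℕ} {o : ℕ → HeightOneSpectrum (𝓞 K)} (hr : T5.IsRayGen r) (hl : 0 < l)
    (ho : ∀ j < l, (o j).asIdeal ∣ 𝔫₀) {z : G K} (hz : IsScalarUniformizerAt (o 0) z) (k : ℤ)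
    {ψ : G K → ℂ} {C : EigData K} (hψ : IsEigFn 𝔫₀ r l o ψ C) :
    IsEigFn 𝔫₀ r l o (shiftOp z k ψ) C := by
  classical
  obtain ⟨hgood, h1, h2, -⟩ := hS 𝔫₀ l o hl ho z hz k
  have h1' := h1 ψ (isRInv_of_isEigFn281 hψ)
  have h2' := h2 ψ hψ.inv.iw
  rw [shiftOp_eq_translOp281] at h1' h2' ⊢
  refine hB 𝔫₀ r l o hr _ _ (fun t ht => ?_) ψ C hψ h1' h2'
  rw [Finset.mem_singleton] at ht
  rw [ht]
  exact hgood

/-- `cosetOp Hg` preserves the eigen-classes. -/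
theorem isEigFn_cosetOp281 (hB : TranslEigC281 K) (hD : DblInvC281 K) {𝔫₀ : Ideal (𝓞 K)}
    {r : G K} {l : ℕ} {o : ℕ → HeightOneSpectrum (𝓞 K)} (hr : T5.IsRayGen r)
    (ho : ∀ j < l, (o j).asIdeal ∣ 𝔫₀) {g : G K} (hg1 : ∀ w : InfinitePlace K, TrivAtInf w g)
    (hg2 : ∀ v : HeightOneSpectrum (𝓞 K), (¬ v.asIdeal ∣ 𝔫₀ ∨ ∃ j < l, v = o j) → TrivAtFin v g)
    {Hg : Finset (G K)} (hHg : IsDblCosetSystem 𝔫₀ g Hg)
    {ψ : G K → ℂ} {C : EigData K} (hψ : IsEigFn 𝔫₀ r l o ψ C) :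
    IsEigFn 𝔫₀ r l o (cosetOp Hg ψ) C := by
  obtain ⟨hgood, hinv⟩ := hD 𝔫₀ l o ho g hg1 hg2 Hg hHg
  obtain ⟨h1, h2⟩ := hinv ψ (isRInv_of_isEigFn281 hψ) hψ.inv.iw
  rw [cosetOp_eq_translOp281] at h1 h2 ⊢
  exact hB 𝔫₀ r l o hr Hg _ hgood ψ C hψ h1 h2

/-- **STABILITY**: `[U g U] Z^k 𝒰^m ψ` is again an invariant eigenfunction with the same
eigen-data. -/
theorem isEigFn_ops281 (hB : TranslEigC281 K) (hC : IwInvC281 K) (hD : DblInvC281 K)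
    (hS : ShiftInvC281 K) {𝔫₀ : Ideal (𝓞 K)}
    {r : G K} {l : ℕ} {o : ℕ → HeightOneSpectrum (𝓞 K)} (hr : T5.IsRayGen r) (hl : 0 < l)
    (ho : ∀ j < l, (o j).asIdeal ∣ 𝔫₀) {g : G K} (hg1 : ∀ w : InfinitePlace K, TrivAtInf w g)
    (hg2 : ∀ v : HeightOneSpectrum (𝓞 K), (¬ v.asIdeal ∣ 𝔫₀ ∨ ∃ j < l, v = o j) → TrivAtFin v g)
    {Hg H : Finset (G K)} {z : G K} (hHg : IsDblCosetSystem 𝔫₀ g Hg)
    (hH : IsIwCosetSystem (o 0) H) (hz : IsScalarUniformizerAt (o 0) z) (k : ℤ) (m : ℕ)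
    {ψ : G K → ℂ} {C : EigData K} (hψ : IsEigFn 𝔫₀ r l o ψ C) :
    IsEigFn 𝔫₀ r l o (cosetOp Hg (shiftOp z k ((iwOp (o 0) H)^[m] ψ))) C :=
  isEigFn_cosetOp281 hB hD hr ho hg1 hg2 hHg
    (isEigFn_shiftOp281 hB hS hr hl ho hz k (isEigFn_iwOp_iterate281 hB hC hr hl ho hH hψ m))

/-- The iterates of `iwOp` do not depend on the coset system. -/
theorem iwOp_iterate_indep281 (hB : TranslEigC281 K) (hC : IwInvC281 K) (hI : IndepC281 K)
    {𝔫₀ : Ideal (𝓞 K)} {r : G K} {l : ℕ} {o : ℕ → HeightOneSpectrum (𝓞 K)}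
    (hr : T5.IsRayGen r) (hl : 0 < l) (ho : ∀ j < l, (o j).asIdeal ∣ 𝔫₀)
    {H H' : Finset (G K)} (hH : IsIwCosetSystem (o 0) H) (hH' : IsIwCosetSystem (o 0) H')
    {ψ : G K → ℂ} {C : EigData K} (hψ : IsEigFn 𝔫₀ r l o ψ C) (m : ℕ) :
    (iwOp (o 0) H)^[m] ψ = (iwOp (o 0) H')^[m] ψ := by
  induction m with
  | zero => rfl
  | succ m ih =>
    rw [Function.iterate_succ_apply', Function.iterate_succ_apply', ih]
    funext x
    exact (hI 𝔫₀ l o hl).1 H H' hH hH' _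
      (isEigFn_iwOp_iterate281 hB hC hr hl ho hH' hψ m).inv.iw x

/-- **INDEPENDENCE**: `[U g U] Z^k 𝒰^m ψ` does not depend on the coset systems. -/
theorem ops_indep281 (hB : TranslEigC281 K) (hC : IwInvC281 K)
    (hS : ShiftInvC281 K) (hI : IndepC281 K) {𝔫₀ : Ideal (𝓞 K)}
    {r : G K} {l : ℕ} {o : ℕ → HeightOneSpectrum (𝓞 K)} (hr : T5.IsRayGen r) (hl : 0 < l)
    (ho : ∀ j < l, (o j).asIdeal ∣ 𝔫₀) {g : G K}
    {Hg H Hg' H' : Finset (G K)} {z z' : G K} (hHg : IsDblCosetSystem 𝔫₀ g Hg)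
    (hH : IsIwCosetSystem (o 0) H) (hz : IsScalarUniformizerAt (o 0) z)
    (hHg' : IsDblCosetSystem 𝔫₀ g Hg')
    (hH' : IsIwCosetSystem (o 0) H') (hz' : IsScalarUniformizerAt (o 0) z') (k : ℤ) (m : ℕ)
    {ψ : G K → ℂ} {C : EigData K} (hψ : IsEigFn 𝔫₀ r l o ψ C) (x : G K) :
    cosetOp Hg (shiftOp z k ((iwOp (o 0) H)^[m] ψ)) x
      = cosetOp Hg' (shiftOp z' k ((iwOp (o 0) H')^[m] ψ)) x := by
  have hm := isEigFn_iwOp_iterate281 hB hC hr hl ho hH' hψ m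
  have e1 : shiftOp z k ((iwOp (o 0) H)^[m] ψ) = shiftOp z' k ((iwOp (o 0) H')^[m] ψ) := by
    rw [iwOp_iterate_indep281 hB hC hI hr hl ho hH hH' hψ m]
    funext y
    exact (hS 𝔫₀ l o hl ho z hz k).2.2.2 z' hz' _ hm.inv.iw y
  rw [e1]
  exact (hI 𝔫₀ l o hl).2 g Hg Hg' hHg hHg' _
    (isRInv_of_isEigFn281 (isEigFn_shiftOp281 hB hS hr hl ho hz' k hm)) x

/-! ### Linearity -/

theorem iwOp_const_mul281 (w : HeightOneSpectrum (𝓞 K)) (H : Finset (G K)) (c : ℂ)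
    (ψ : G K → ℂ) : iwOp w H (fun y => c * ψ y) = fun y => c * iwOp w H ψ y := by
  funext y
  simp only [iwOp, ← Finset.mul_sum]
  ring

theorem iwOp_iterate_const_mul281 (w : HeightOneSpectrum (𝓞 K)) (H : Finset (G K)) (c : ℂ)
    (ψ : G K → ℂ) (m : ℕ) :
    (iwOp w H)^[m] (fun y => c * ψ y) = fun y => c * (iwOp w H)^[m] ψ y := by
  induction m with
  | zero => rfl
  | succ m ih =>
    rw [Function.iterate_succ_apply', ih, iwOp_const_mul281]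
    funext y
    rw [Function.iterate_succ_apply']

theorem ops_const_mul281 (w : HeightOneSpectrum (𝓞 K)) (Hg H : Finset (G K)) (z : G K) (k : ℤ)
    (m : ℕ) (c : ℂ) (ψ : G K → ℂ) :
    cosetOp Hg (shiftOp z k ((iwOp w H)^[m] (fun y => c * ψ y)))
      = fun y => c * cosetOp Hg (shiftOp z k ((iwOp w H)^[m] ψ)) y := by
  rw [iwOp_iterate_const_mul281]
  funext y
  simp only [cosetOp, shiftOp, ← Finset.mul_sum]

theorem Rconv_const_mul281 (μ : Measure (G K)) (φ ψ : G K → ℂ) (c : ℂ) (x : G K) :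
    T5.Rconv μ φ (fun y => c * ψ y) x = c * T5.Rconv μ φ ψ x := by
  unfold T5.Rconv
  rw [← integral_const_mul]
  congr 1
  funext y
  ring

end Top

section Final

variable {K K' : Type} [Field K] [NumberField K] [Field K'] [NumberField K'] [Algebra K K']

/-- **THE TOP OF THE LEAF T7.L2.1.F3.** -/
theorem opUpC_of281 (hA : RconvOpsC281 K') (hB : TranslEigC281 K') (hC : IwInvC281 K')
    (hD : DblInvC281 K') (hS : ShiftInvC281 K') (hI : IndepC281 K') : OpUpC K K' := by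
  intro ℓ Φ B hBase g hg E hE X k m hX ψ C hψ Hg H z hHg hH hz x
  have hr : T5.IsRayGen B.R'.r := hBase.frame'.ray
  have hl : 0 < ℓ := hBase.deg ▸ hBase.cyc.pos
  have ho : ∀ j < ℓ, (B.o j).asIdeal ∣ B.𝔑₀ := fun j _ =>
    (hBase.mem_S' (B.o j)).1 (hBase.orbit_level j)
  have hg1 : ∀ w : InfinitePlace K', TrivAtInf w g := hg.1
  have hg2 : ∀ v : HeightOneSpectrum (𝓞 K'),
      (¬ v.asIdeal ∣ B.𝔑₀ ∨ ∃ j < ℓ, v = B.o j) → TrivAtFin v g := by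
    intro v hv
    refine hg.2 v ?_
    rcases hv with hv | ⟨j, hj, hv⟩
    · exact Or.inl fun h => hv ((hBase.mem_S' v).1 h)
    · exact Or.inr ⟨j, hBase.deg ▸ hj, hv⟩
  have hΦ₁ := hE.up1_test X hX
  have hφ₂ := hE.up2_test
  -- Fubini and the translations
  have e1 := hA B.R'.μ B.R'.F hBase.frame'.frame (E.Φ₁ X) E.φ₂ ψ hΦ₁.cont hΦ₁.supp hφ₂.cont
    hφ₂.supp hψ.inv.cusp.cont (B.o 0) E.Hg E.H' E.z' k m x
  -- the scalar of `φ₂`
  have e2 : T5.Rconv B.R'.μ E.φ₂ ψ = fun y => E.c₂ C * ψ y :=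
    funext fun y => hE.up2_op ψ C hψ y
  -- stability
  have hst := isEigFn_ops281 hB hC hD hS hr hl ho hg1 hg2 hE.sysg hE.sys' hE.unif' k m hψ
  -- the scalar of `Φ₁ X`
  have e3 := hE.up1_op X hX _ C hst x
  -- independence
  have e4 := ops_indep281 hB hC hS hI hr hl ho hE.sysg hE.sys' hE.unif' hHg hH hz k m hψ x
  show T5.Rconv B.R'.μ
      (T5.conv B.R'.μ (E.Φ₁ X) (lsum E.Hg (regL (B.o 0) E.z' E.H' k m E.φ₂))) ψ x = _
  rw [e1, e2, ops_const_mul281, Rconv_const_mul281, e3, e4]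
  ring

end Final

end Fermat.Agent.LT.T7.H281

end
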