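import Mathlib
import Fermat.Agent.LT.T7.H281.OpUpSpec
import Fermat.Agent.LT.H129.HeckeA0
import Fermat.Agent.LT.T2.H472.LocCont
import Fermat.Agent.LT.T2.H886.CuspAlg

/-!
# Row LT, tower T7, sub-leaf T7.L2.1.F3.B `TranslEigC281` (helper281, registry row 2438)

OFF-MAIN.  `translEigC281 K : TranslEigC281 K`, VERBATIM against `LT/T7/H281/OpUpSpec.lean`.
No `sorry`, nothing assumed.  ADDITIVE (new names only, all ending in `281`).

Assets (byte-identical copies): helper129 kit `LT/H129/*` (components of `GL₂(𝔸)`), helper472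
`LT/T2/H472/LocCont.lean` (`locCont472`: families supported at an infinite place with continuous
components are continuous), helper886 `LT/T2/H886/CuspAlg.lean` (closure of `A0.IsCuspidalFn`
under sums of continuous bounded functions and right translations).
-/

set_option autoImplicit false

open AutomorphicForm IsDedekindDomain NumberField MeasureTheory
open scoped ComplexConjugate

noncomputable section

namespace Fermat.Agent.LT.T7.H281

open Fermat.Agent.LT.H556 Fermat.Agent.LT.H556.A0 Fermat.Agent.LT.T7 Fermat.Agent.LT.T7.H893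
open Fermat.Agent.LT.H129

variable {K : Type} [Field K] [NumberField K]

/-! ## 1. Commutation -/

/-- An element which is trivial at infinity commutes with an element which is trivial at the
finite places. -/
theorem commute_fin_inf281 {t k : G K} (ht : ∀ w : InfinitePlace K, TrivAtInf w t)
    (hk : ∀ v : HeightOneSpectrum (𝓞 K), TrivAtFin v k) : k * t = t * k := by
  apply G_ext129
  · intro w
    rw [map_mul, map_mul, (trivAtInf_iff129 w t).1 (ht w), one_mul, mul_one]
  · intro v
    rw [map_mul, map_mul, (trivAtFin_iff129 v k).1 (hk v), one_mul, mul_one]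

/-- A scalar uniformiser is central. -/
theorem commute_scalar_all281 {v : HeightOneSpectrum (𝓞 K)} {z : G K}
    (hz : IsScalarUniformizerAt v z) (h : G K) : z * h = h * z := by
  obtain ⟨hzloc, c, -, hzc⟩ := hz
  rw [isLocalAtFin_iff129] at hzloc
  apply G_ext129
  · intro u
    rw [map_mul, map_mul, hzloc.1 u, one_mul, mul_one]
  · intro v'
    by_cases hv : v' = v
    · subst hv
      apply Units.ext
      rw [map_mul, map_mul, Matrix.GeneralLinearGroup.coe_mul,
        Matrix.GeneralLinearGroup.coe_mul, coe_finCompHom129, coe_finCompHom129, hzc]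
      ext i j
      rw [Matrix.diagonal_mul, Matrix.mul_diagonal, mul_comm]
    · rw [map_mul, map_mul, hzloc.2 v' hv, one_mul, mul_one]

/-! ## 2. The elementary fields -/

theorem continuous_sum_transl281 {ψ : G K → ℂ} (hψ : Continuous ψ) (T : Finset (G K)) :
    Continuous fun x : G K => ∑ t ∈ T, ψ (x * t) :=
  continuous_finset_sum _ fun t _ => hψ.comp (continuous_id.mul continuous_const)

theorem bdd_sum_transl281 {ψ : G K → ℂ} {C : ℝ} (hψ : ∀ g : G K, ‖ψ g‖ ≤ C)
    (T : Finset (G K)) (x : G K) : ‖∑ t ∈ T, ψ (x * t)‖ ≤ T.card * C := by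
  calc ‖∑ t ∈ T, ψ (x * t)‖ ≤ ∑ t ∈ T, ‖ψ (x * t)‖ := norm_sum_le _ _
    _ ≤ ∑ _t ∈ T, C := Finset.sum_le_sum fun _ _ => hψ _
    _ = T.card * C := by rw [Finset.sum_const, nsmul_eq_mul]

/-- Cuspidality of a finite sum of right translates. -/
theorem cuspidal_sum_transl281 {ψ : G K → ℂ} (hc : Continuous ψ) {C : ℝ}
    (hb : ∀ g : G K, ‖ψ g‖ ≤ C) (hψ : IsCuspidalFn ψ) (T : Finset (G K)) :
    IsCuspidalFn fun x : G K => ∑ t ∈ T, ψ (x * t) := by
  classical
  induction T using Finset.induction_on with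
  | empty =>
    simp only [Finset.sum_empty]
    exact T2.H886.isCuspidalFn_zero886
  | insert a s ha ih =>
    have e : (fun x : G K => ∑ t ∈ insert a s, ψ (x * t))
        = fun x : G K => ψ (x * a) + ∑ t ∈ s, ψ (x * t) := by
      funext x
      rw [Finset.sum_insert ha]
    rw [e]
    exact T2.H886.isCuspidalFn_add886 (φ := fun x => ψ (x * a))
      (ψ := fun x => ∑ t ∈ s, ψ (x * t)) (hc.comp (continuous_id.mul continuous_const))
      (fun g => hb _) (continuous_sum_transl281 hc s) (bdd_sum_transl281 hb s)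
      (T2.H886.isCuspidalFn_shift886 a hψ) ih

/-- The cusp-function part. -/
theorem isCuspFn_translOp281 {𝔫₀ : Ideal (𝓞 K)} {r : G K} (hr : T5.IsRayGen r)
    {T : Finset (G K)} (c : ℂ) (hT : ∀ t ∈ T, ∀ w : InfinitePlace K, TrivAtInf w t)
    {ψ : G K → ℂ} (hψ : T5.IsCuspFn 𝔫₀ T5.trivType r ψ)
    (hinv : IsRInv281 𝔫₀ (translOp281 T c ψ)) :
    T5.IsCuspFn 𝔫₀ T5.trivType r (translOp281 T c ψ) := by
  obtain ⟨C, hC⟩ := hψ.bdd
  refine ⟨?_, ?_, ⟨?_, ?_, ?_, ?_⟩, ?_⟩
  · exact continuous_const.mul (continuous_sum_transl281 hψ.cont T)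
  · refine ⟨‖c‖ * (T.card * C), fun g => ?_⟩
    unfold translOp281
    rw [norm_mul]
    exact mul_le_mul_of_nonneg_left (bdd_sum_transl281 hC T g) (norm_nonneg c)
  · intro γ g
    unfold translOp281
    congr 1
    refine Finset.sum_congr rfl fun t _ => ?_
    rw [mul_assoc]
    exact hψ.aut.left_inv γ (g * t)
  · exact fun u hu g => hinv u hu g
  · intro w k hk g
    unfold translOp281
    have e : ∀ t ∈ T, ψ (g * k * t) = T5.trivType k * ψ (g * t) := by
      intro t ht
      rw [mul_assoc, commute_fin_inf281 (hT t ht) hk.1.2, ← mul_assoc]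
      exact hψ.aut.arch_compact w k hk (g * t)
    rw [Finset.sum_congr rfl e, ← Finset.mul_sum]
    ring
  · intro g
    unfold translOp281
    congr 1
    refine Finset.sum_congr rfl fun t ht => ?_
    rw [mul_assoc, commute_fin_inf281 (hT t ht) hr.1, ← mul_assoc]
    exact hψ.aut.ray (g * t)
  · exact T2.H886.isCuspidalFn_const_mul886 c (cuspidal_sum_transl281 hψ.cont hC hψ.cuspidal T)

/-- The invariant-cusp-function part. -/
theorem isWFn_translOp281 {𝔫₀ : Ideal (𝓞 K)} {r : G K} {l : ℕ}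
    {o : ℕ → HeightOneSpectrum (𝓞 K)} (hr : T5.IsRayGen r)
    {T : Finset (G K)} (c : ℂ) (hT : ∀ t ∈ T, ∀ w : InfinitePlace K, TrivAtInf w t)
    {ψ : G K → ℂ} (hψ : IsWFn 𝔫₀ r l o ψ)
    (hinv : IsRInv281 𝔫₀ (translOp281 T c ψ)) (hiw : IsIwInv l o (translOp281 T c ψ)) :
    IsWFn 𝔫₀ r l o (translOp281 T c ψ) := by
  refine ⟨isCuspFn_translOp281 hr c hT hψ.cusp hinv, ?_, hiw⟩
  intro w z hz g
  unfold translOp281
  congr 1
  refine Finset.sum_congr rfl fun t ht => ?_
  rw [mul_assoc, commute_fin_inf281 (hT t ht) hz.1.2, ← mul_assoc]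
  exact hψ.arch_scalar w z hz (g * t)

/-! ## 3. The Hecke operators at the places prime to the level -/

theorem conj_injective281 (t : G K) : Function.Injective fun h : G K => t⁻¹ * h * t :=
  fun _ _ hab => mul_left_cancel (mul_right_cancel hab)

/-- The conjugate of a Hecke coset system at `v` by an element whose component at `v` lies in
`GL₂(𝒪_v)` is a Hecke coset system at `v`. -/
theorem isHeckeCosetSystem_conj281 [DecidableEq (G K)] {v : HeightOneSpectrum (𝓞 K)}
    {H : Finset (G K)} (hH : IsHeckeCosetSystem v H) {t : G K} (ht : IsIntegralAt v t)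
    (ht' : IsIntegralAt v t⁻¹) : IsHeckeCosetSystem v (H.image fun h => t⁻¹ * h * t) := by
  obtain ⟨hcard, hmem, hne⟩ := hH
  have hti : IsInt129 (v.adicCompletionIntegers K) (finCompHom129 v t) := ht
  have hti' : IsInt129 (v.adicCompletionIntegers K) (finCompHom129 v t)⁻¹ := by
    rw [← map_inv]
    exact ht'
  refine ⟨?_, ?_, ?_⟩
  · rw [Finset.card_image_of_injective _ (conj_injective281 t), hcard]
  · intro h hh
    obtain ⟨a, ha, rfl⟩ := Finset.mem_image.mp hh
    obtain ⟨haloc, haint, hadet⟩ := hmem a ha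
    refine ⟨?_, ?_, ?_⟩
    · rw [isLocalAtFin_iff129] at haloc ⊢
      refine ⟨fun w => ?_, fun v' hv' => ?_⟩
      · rw [map_mul, map_mul, map_inv, haloc.1 w, mul_one, inv_mul_cancel]
      · rw [map_mul, map_mul, map_inv, haloc.2 v' hv', mul_one, inv_mul_cancel]
    · rw [← isInt129_finCompHom_iff, map_mul, map_mul, map_inv]
      exact isInt129_mul (isInt129_mul hti' haint) hti
    · rw [← coe_finCompHom129, map_mul, map_mul, map_inv, Matrix.GeneralLinearGroup.coe_mul,
        Matrix.GeneralLinearGroup.coe_mul, Matrix.det_units_conj', coe_finCompHom129]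
      exact hadet
  · intro h hh h' hh' hhh hint
    obtain ⟨a, ha, rfl⟩ := Finset.mem_image.mp hh
    obtain ⟨b, hb, rfl⟩ := Finset.mem_image.mp hh'
    have hab : a ≠ b := fun e => hhh (by rw [e])
    apply hne a ha b hb hab
    have e : a⁻¹ * b = t * ((t⁻¹ * a * t)⁻¹ * (t⁻¹ * b * t)) * t⁻¹ := by group
    rw [e, ← isInt129_finCompHom_iff, map_mul, map_mul, map_inv]
    exact isInt129_mul (isInt129_mul hti hint) hti'

/-- The Hecke field. -/
theorem hecke_translOp281 {𝔫₀ : Ideal (𝓞 K)} {T : Finset (G K)} (c : ℂ)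
    (hT : ∀ t ∈ T, IsGoodTransl281 𝔫₀ t) {ψ : G K → ℂ} {v : HeightOneSpectrum (𝓞 K)}
    (hv : ¬ v.asIdeal ∣ 𝔫₀) {a b : ℂ} (hψ : IsHeckeEigenAt ψ v a b) :
    IsHeckeEigenAt (translOp281 T c ψ) v a b := by
  classical
  refine ⟨?_, ?_⟩
  · intro H hH g
    unfold translOp281
    have e : ∀ t ∈ T, ∑ h ∈ H, ψ (g * h * t)
        = ((Real.sqrt (Ideal.absNorm v.asIdeal : ℝ) : ℝ) : ℂ) * a * ψ (g * t) := by
      intro t ht
      have hsys := isHeckeCosetSystem_conj281 hH ((hT t ht).2 v hv).1 ((hT t ht).2 v hv).2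
      have h1 := hψ.1 _ hsys (g * t)
      rw [Finset.sum_image (fun x _ y _ hxy => conj_injective281 t hxy)] at h1
      rw [← h1]
      refine Finset.sum_congr rfl fun h _ => ?_
      congr 1
      group
    rw [← Finset.mul_sum, Finset.sum_comm, Finset.sum_congr rfl e, ← Finset.mul_sum]
    ring
  · intro z hz g
    unfold translOp281
    have e : ∀ t ∈ T, ψ (g * z * t) = b * ψ (g * t) := by
      intro t _
      rw [mul_assoc, commute_scalar_all281 hz t, ← mul_assoc]
      exact hψ.2 z hz (g * t)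
    rw [Finset.sum_congr rfl e, ← Finset.mul_sum]
    ring

/-! ## 4. The sphere means -/

/-- The entries of `rotZ α * rotY β * torus d` are continuous in `(α, β)`. -/
theorem continuous_sphere_entry281 (d : ℝ) (i j : Fin 2) :
    Continuous fun p : ℝ × ℝ => (rotZ p.1 * rotY p.2 * torus d) i j := by
  have h1 : Continuous fun p : ℝ × ℝ => rotZ p.1 := by
    unfold rotZ
    apply continuous_matrix
    intro i j
    fin_cases i <;> fin_cases j <;> simp <;> fun_prop
  have h2 : Continuous fun p : ℝ × ℝ => rotY p.2 := by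
    unfold rotY
    apply continuous_matrix
    intro i j
    fin_cases i <;> fin_cases j <;> simp <;> fun_prop
  have h3 : Continuous fun p : ℝ × ℝ => rotZ p.1 * rotY p.2 * torus d :=
    (h1.matrix_mul h2).matrix_mul continuous_const
  exact h3.matrix_elem i j

/-- The parametrisation of a sphere is continuous. -/
theorem continuous_sphere281 {w : InfinitePlace K} {d : ℝ} {Y : ℝ → ℝ → G K}
    (hY : ∀ α β : ℝ, IsLocalAtInf w (Y α β) ∧ infComp w (Y α β) = rotZ α * rotY β * torus d) :
    Continuous fun p : ℝ × ℝ => Y p.1 p.2 := by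
  apply T2.H472.locCont472 K w (ℝ × ℝ) (fun p : ℝ × ℝ => Y p.1 p.2) (fun p => (hY p.1 p.2).1)
  intro i j
  have : (fun p : ℝ × ℝ => infComp w (Y p.1 p.2) i j)
      = fun p : ℝ × ℝ => (rotZ p.1 * rotY p.2 * torus d) i j := by
    funext p
    rw [(hY p.1 p.2).2]
  rw [this]
  exact continuous_sphere_entry281 d i j

/-- The sphere-mean field. -/
theorem mean_translOp281 {T : Finset (G K)} (c : ℂ)
    (hT : ∀ t ∈ T, ∀ w : InfinitePlace K, TrivAtInf w t) {ψ : G K → ℂ} (hc : Continuous ψ)
    {w : InfinitePlace K} {m : ℝ → ℂ} (hψ : MeanEig ψ w m) :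
    MeanEig (translOp281 T c ψ) w m := by
  intro d hd Y hY g
  have hYc := continuous_sphere281 hY
  -- the integrands
  obtain ⟨F, hF⟩ : ∃ F : G K → ℝ → ℝ → ℂ,
      F = fun t α β => ψ (g * t * Y α β) * ((Real.sin β : ℝ) : ℂ) := ⟨_, rfl⟩
  have hFc : ∀ t : G K, Continuous (Function.uncurry (F t)) := by
    intro t
    rw [hF]
    have h1 : Continuous fun p : ℝ × ℝ => ψ (g * t * Y p.1 p.2) :=
      hc.comp (continuous_const.mul hYc)
    have h2 : Continuous fun p : ℝ × ℝ => ((Real.sin p.2 : ℝ) : ℂ) := by fun_prop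
    exact h1.mul h2
  have hFi : ∀ (t : G K) (α : ℝ), Continuous fun β : ℝ => F t α β := fun t α =>
    (hFc t).comp (Continuous.prodMk_right α)
  have hGc : ∀ t : G K, Continuous fun α : ℝ => ∫ β in (0 : ℝ)..Real.pi, F t α β := fun t =>
    intervalIntegral.continuous_parametric_intervalIntegral_of_continuous' (hFc t) 0 Real.pi
  -- the eigen-equation for each translate
  have hev : ∀ t : G K,
      (∫ α in (0 : ℝ)..(2 * Real.pi), ∫ β in (0 : ℝ)..Real.pi, F t α β) = m d * ψ (g * t) := by
    intro t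
    rw [hF]
    exact hψ d hd Y hY (g * t)
  -- the pointwise identity
  have hpt : ∀ α β : ℝ, translOp281 T c ψ (g * Y α β) * ((Real.sin β : ℝ) : ℂ)
      = ∑ t ∈ T, c * F t α β := by
    intro α β
    unfold translOp281
    rw [Finset.mul_sum, Finset.sum_mul]
    refine Finset.sum_congr rfl fun t ht => ?_
    rw [hF]
    simp only
    rw [mul_assoc g, commute_fin_inf281 (hT t ht) (hY α β).1.2, ← mul_assoc, mul_assoc c]
  have hin : ∀ α : ℝ,
      (∫ β in (0 : ℝ)..Real.pi, translOp281 T c ψ (g * Y α β) * ((Real.sin β : ℝ) : ℂ))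
        = ∑ t ∈ T, c * ∫ β in (0 : ℝ)..Real.pi, F t α β := by
    intro α
    have e : (fun β : ℝ => translOp281 T c ψ (g * Y α β) * ((Real.sin β : ℝ) : ℂ))
        = fun β : ℝ => ∑ t ∈ T, c * F t α β := funext fun β => hpt α β
    have hint : ∀ t ∈ T, IntervalIntegrable (fun β : ℝ => c * F t α β) volume 0 Real.pi :=
      fun t _ => (Continuous.mul continuous_const (hFi t α)).intervalIntegrable _ _
    rw [e, intervalIntegral.integral_finset_sum hint]
    refine Finset.sum_congr rfl fun t _ => ?_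
    rw [intervalIntegral.integral_const_mul]
  have e2 : (fun α : ℝ =>
      ∫ β in (0 : ℝ)..Real.pi, translOp281 T c ψ (g * Y α β) * ((Real.sin β : ℝ) : ℂ))
        = fun α : ℝ => ∑ t ∈ T, c * ∫ β in (0 : ℝ)..Real.pi, F t α β := funext hin
  have hint2 : ∀ t ∈ T, IntervalIntegrable
      (fun α : ℝ => c * ∫ β in (0 : ℝ)..Real.pi, F t α β) volume 0 (2 * Real.pi) :=
    fun t _ => (Continuous.mul continuous_const (hGc t)).intervalIntegrable _ _
  rw [e2, intervalIntegral.integral_finset_sum hint2]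
  have e3 : ∀ t ∈ T, (∫ α in (0 : ℝ)..(2 * Real.pi), c * ∫ β in (0 : ℝ)..Real.pi, F t α β)
      = m d * (c * ψ (g * t)) := by
    intro t _
    rw [intervalIntegral.integral_const_mul, hev t]
    ring
  rw [Finset.sum_congr rfl e3]
  unfold translOp281
  rw [Finset.mul_sum, Finset.mul_sum]

/-! ## 5. The sub-leaf -/

/-- **SUB-LEAF T7.L2.1.F3.B `TranslEigC281`.** -/
theorem translEigC281 (K : Type) [Field K] [NumberField K] : TranslEigC281 K := by
  intro 𝔫₀ r l o hr T c hT ψ C hψ hinv hiw
  have hT' : ∀ t ∈ T, ∀ w : InfinitePlace K, TrivAtInf w t := fun t ht => (hT t ht).1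
  refine ⟨isWFn_translOp281 hr c hT' hψ.inv hinv hiw, ?_, ?_⟩
  · intro v hv
    exact hecke_translOp281 c hT hv (hψ.hecke v hv)
  · intro w
    exact mean_translOp281 c hT' hψ.inv.cusp.cont (hψ.mean w)

end Fermat.Agent.LT.T7.H281

end
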