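import Mathlib
import Fermat.Agent.LT.T7.H281.OpUpSpec
import Fermat.Agent.LT.T7.H340.IwKit
import Fermat.Agent.LT.T7.H271.Indep
import Fermat.Agent.LT.T7.H439.ClLocal

/-!
# Row LT, tower T7, sub-leaves T7.L2.1.F3.C `IwInvC281` and T7.L2.1.F3.D `DblInvC281`
(helper281; spares of the registry rows 2439, 2440)

OFF-MAIN.  `iwInvC281 K : IwInvC281 K`, `dblInvC281 K : DblInvC281 K`, VERBATIM against
`LT/T7/H281/OpUpSpec.lean`.  No `sorry`, nothing assumed.  ADDITIVE (names ending in `281`).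

Assets (byte-identical copies): helper340 `LT/T7/H340/IwKit.lean` (`isIwInv_iwOp340`,
`iwSum_indep340`, `isIwCosetSystem_translate340`, ...), helper271 `LT/T7/H271/Indep.lean`
(`inLevelGroup_mul271`), helper439 `LT/T7/H439/ClLocal.lean` (`ic_lt_one439`, `ic_val_le439`);
the proof of `level_inv_iwOp281` follows `level_inv_iwOp439` of helper439
(`LT/T7/H439/OpsClass.lean`, there for the orbit of length one).
-/

set_option autoImplicit false

open AutomorphicForm IsDedekindDomain NumberField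

noncomputable section

namespace Fermat.Agent.LT.T7.H281

open Fermat.Agent.LT.H556 Fermat.Agent.LT.H556.A0 Fermat.Agent.LT.T7 Fermat.Agent.LT.T7.H893
open Fermat.Agent.LT.H129 Fermat.Agent.LT.T7.H340

variable {K : Type} [Field K] [NumberField K]

/-! ## 1. The level group -/

theorem zero_mem_ic281 (𝔫 : Ideal (𝓞 K)) (v : HeightOneSpectrum (𝓞 K)) :
    (0 : v.adicCompletion K) ∈ idealClosure 𝔫 v := by
  have h := H439.embO_mem_ic439 v (𝔫.zero_mem)
  have e : H439.embO439 v (0 : 𝓞 K) = 0 := by simp [H439.embO439]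
  rwa [e] at h

theorem ic_le_one281 (𝔫 : Ideal (𝓞 K)) (v : HeightOneSpectrum (𝓞 K)) {x : v.adicCompletion K}
    (hx : x ∈ idealClosure 𝔫 v) : Valued.v x ≤ 1 :=
  H439.ic_val_le439 𝔫 v (fun m _ => v.intValuation_le_one m) hx

theorem valued_le_one_of_sub_one281 (𝔫 : Ideal (𝓞 K)) (v : HeightOneSpectrum (𝓞 K))
    (M : Matrix (Fin 2) (Fin 2) (v.adicCompletion K))
    (hM : ∀ i j, (M - 1) i j ∈ idealClosure 𝔫 v) (i j : Fin 2) : Valued.v (M i j) ≤ 1 := by
  have e : M i j = (M - 1) i j + (1 : Matrix (Fin 2) (Fin 2) (v.adicCompletion K)) i j := by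
    rw [Matrix.sub_apply, sub_add_cancel]
  rw [e]
  refine (Valuation.map_add _ _ _).trans (max_le (ic_le_one281 𝔫 v (hM i j)) ?_)
  by_cases hij : i = j
  · subst hij
    rw [Matrix.one_apply_eq, map_one]
  · rw [Matrix.one_apply_ne hij, map_zero]
    exact zero_le

/-- The elements of the level group are in `GL₂(𝒪_v)` at every finite place. -/
theorem isIntegralAt_of_level281 {𝔫 : Ideal (𝓞 K)} {k : G K} (hk : InLevelGroup 𝔫 k)
    (v : HeightOneSpectrum (𝓞 K)) : IsIntegralAt v k ∧ IsIntegralAt v k⁻¹ := by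
  refine ⟨fun i j => ?_, fun i j => ?_⟩
  · rw [HeightOneSpectrum.mem_adicCompletionIntegers]
    exact valued_le_one_of_sub_one281 𝔫 v _ (fun i j => (hk.2 v i j).1) i j
  · rw [HeightOneSpectrum.mem_adicCompletionIntegers]
    exact valued_le_one_of_sub_one281 𝔫 v _ (fun i j => (hk.2 v i j).2) i j

/-- The level group at a place dividing the level lies in the Iwahori subgroup. -/
theorem inIwahori_of_level281 {𝔫 : Ideal (𝓞 K)} {u : HeightOneSpectrum (𝓞 K)}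
    (hu : u.asIdeal ∣ 𝔫) {k : G K} (hk : InLevelGroup 𝔫 k) : T5.InIwahori u k := by
  refine ⟨(isIntegralAt_of_level281 hk u).1, (isIntegralAt_of_level281 hk u).2, ?_⟩
  have h := H439.ic_lt_one439 hu (hk.2 u 1 0).1
  rwa [Matrix.sub_apply, Matrix.one_apply_ne (by decide), sub_zero] at h

theorem inLevelGroup_inv281 {𝔫 : Ideal (𝓞 K)} {u : G K} (h : InLevelGroup 𝔫 u) :
    InLevelGroup 𝔫 u⁻¹ := by
  refine ⟨fun w => ?_, fun v i j => ⟨(h.2 v i j).2, ?_⟩⟩
  · rw [trivAtInf_iff129, map_inv, (trivAtInf_iff129 w u).1 (h.1 w), inv_one]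
  · rw [inv_inv]
    exact (h.2 v i j).1

theorem inIwahori_of_triv281 {u : HeightOneSpectrum (𝓞 K)} {g : G K} (hg : TrivAtFin u g) :
    T5.InIwahori u g := by
  rw [inIwahori_iff340, (trivAtFin_iff129 u g).1 hg]
  exact isIwG340_one

theorem isIntegralAt_of_triv281 {v : HeightOneSpectrum (𝓞 K)} {g : G K} (hg : TrivAtFin v g) :
    IsIntegralAt v g ∧ IsIntegralAt v g⁻¹ := by
  have h1 : finCompHom129 v g = 1 := (trivAtFin_iff129 v g).1 hg
  have h2 : finCompHom129 v g⁻¹ = 1 := by rw [map_inv, h1, inv_one]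
  refine ⟨?_, ?_⟩
  · rw [← isInt129_finCompHom_iff, h1]
    exact isInt129_one _
  · rw [← isInt129_finCompHom_iff, h2]
    exact isInt129_one _

/-! ## 2. Sub-leaf C: the Iwahori operator -/

/-- `𝒰 ψ` is right invariant under `U(𝔫₀)` (after `level_inv_iwOp439`, helper439). -/
theorem level_inv_iwOp281 {𝔫 : Ideal (𝓞 K)} {l : ℕ} {o : ℕ → HeightOneSpectrum (𝓞 K)}
    (hl : 0 < l) (hu : (o 0).asIdeal ∣ 𝔫) {H : Finset (G K)} (hH : IsIwCosetSystem (o 0) H)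
    {ψ : G K → ℂ} (hL : IsRInv281 𝔫 ψ) (hi : IsIwInv l o ψ) :
    IsRInv281 𝔫 (iwOp (o 0) H ψ) := by
  classical
  intro k hk x
  unfold iwOp
  congr 1
  set kw : G K := locFin129 (o 0) (finCompHom129 (o 0) k) with hkw
  set k' : G K := kw⁻¹ * k with hk'
  have hkwloc : IsLocalAtFin (o 0) kw := isLocalAtFin_locFin129 _ _
  have hkwI : T5.InIwahori (o 0) kw := by
    rw [inIwahori_iff340, hkw, finCompHom129_locFin129, ← inIwahori_iff340]
    exact inIwahori_of_level281 hu hk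
  have hk'w : finCompHom129 (o 0) k' = 1 := by
    rw [hk', map_mul, map_inv, hkw, finCompHom129_locFin129, inv_mul_cancel]
  have hk'v : ∀ v : HeightOneSpectrum (𝓞 K), v ≠ o 0 →
      finCompHom129 v k' = finCompHom129 v k := by
    intro v hv
    rw [hk', map_mul, map_inv, hkw, finCompHom129_locFin129_of_ne _ _ hv, inv_one, one_mul]
  have hk'inf : ∀ w : InfinitePlace K, TrivAtInf w k' := by
    intro w
    rw [trivAtInf_iff129, hk', map_mul, map_inv, hkw, infCompHom129_locFin129, inv_one,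
      one_mul, ← trivAtInf_iff129]
    exact hk.1 w
  have hk'L : InLevelGroup 𝔫 k' := by
    refine ⟨hk'inf, fun v i j => ?_⟩
    by_cases hv : v = o 0
    · have e1 : finComp v k' = 1 := by
        rw [← coe_finCompHom129, hv, hk'w]; rfl
      have e2 : finComp v k'⁻¹ = 1 := by
        rw [← coe_finCompHom129, map_inv, hv, hk'w, inv_one]; rfl
      rw [e1, e2, sub_self]
      exact ⟨zero_mem_ic281 𝔫 v, zero_mem_ic281 𝔫 v⟩
    · have e1 : finComp v k' = finComp v k := by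
        rw [← coe_finCompHom129, hk'v v hv]; rfl
      have e2 : finComp v k'⁻¹ = finComp v k⁻¹ := by
        rw [← coe_finCompHom129, map_inv, hk'v v hv, ← map_inv]; rfl
      rw [e1, e2]
      exact hk.2 v i j
  have hkk : k = kw * k' := by rw [hk']; group
  have hterm : ∀ h ∈ H, ψ (x * k * h) = ψ (x * (kw * h)) := by
    intro h hh
    have hcomm : k' * h = h * k' := (commute_of_local340 (hH.2.1 h hh).1 hk'w).symm
    have e : x * k * h = x * (kw * h) * k' := by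
      rw [hkk, mul_assoc, mul_assoc kw, hcomm]
      group
    rw [e]
    exact hL k' hk'L _
  rw [Finset.sum_congr rfl hterm]
  have himg : ∑ h ∈ H, ψ (x * (kw * h)) = ∑ h ∈ H.image (fun h => kw * h), ψ (x * h) := by
    rw [Finset.sum_image (fun a _ b _ hab => mul_right_injective kw hab)]
  rw [himg]
  exact iwSum_indep340 (isIwCosetSystem_translate340 hH hkwloc hkwI) hH ψ
    (fun b hb hbI g => isIwInv_local340 hi hl b hb hbI g) x

/-- **SUB-LEAF T7.L2.1.F3.C `IwInvC281`.** -/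
theorem iwInvC281 (K : Type) [Field K] [NumberField K] : IwInvC281 K := by
  intro 𝔫₀ l o hl ho H hH
  have h0 : (o 0).asIdeal ∣ 𝔫₀ := ho 0 hl
  refine ⟨fun h hh => ⟨(hH.2.1 h hh).1.1, fun v hv => ?_⟩,
    fun ψ hL hi => ⟨level_inv_iwOp281 hl h0 hH hL hi, isIwInv_iwOp340 hl hH hi⟩⟩
  have hne : v ≠ o 0 := fun e => hv (e ▸ h0)
  exact isIntegralAt_of_triv281 ((hH.2.1 h hh).1.2 v hne)

/-! ## 3. Sub-leaf D: the Hecke operator of the bad element -/

theorem trivAtInf_of_dbl281 {𝔫 : Ideal (𝓞 K)} {g : G K}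
    (hg1 : ∀ w : InfinitePlace K, TrivAtInf w g) {a u₁ u₂ : G K} (h1 : InLevelGroup 𝔫 u₁)
    (h2 : InLevelGroup 𝔫 u₂) (ha : a = u₁ * g * u₂) (w : InfinitePlace K) : TrivAtInf w a := by
  rw [ha, trivAtInf_iff129, map_mul, map_mul, (trivAtInf_iff129 w u₁).1 (h1.1 w),
    (trivAtInf_iff129 w g).1 (hg1 w), (trivAtInf_iff129 w u₂).1 (h2.1 w), one_mul, one_mul]

/-- The permutation of a system of representatives induced by the left multiplication by an
element of the level group. -/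
theorem dbl_perm281 {𝔫 : Ideal (𝓞 K)} {g : G K} {A : Finset (G K)}
    (hA : IsDblCosetSystem 𝔫 g A) {u : G K} (hu : InLevelGroup 𝔫 u) :
    ∀ a ∈ A, ∃ b ∈ A, InLevelGroup 𝔫 (b⁻¹ * (u * a)) := by
  intro a ha
  obtain ⟨u₁, u₂, h1, h2, rfl⟩ := hA.1 a ha
  obtain ⟨b, hb, hbu⟩ := hA.2.2 (u * u₁) (H271.inLevelGroup_mul271 hu h1)
  refine ⟨b, hb, ?_⟩
  have e : b⁻¹ * (u * (u₁ * g * u₂)) = (b⁻¹ * (u * u₁ * g)) * u₂ := by group
  rw [e]
  exact H271.inLevelGroup_mul271 hbu h2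

theorem dbl_perm_inv281 {𝔫 : Ideal (𝓞 K)} {g : G K} {A : Finset (G K)}
    (hA : IsDblCosetSystem 𝔫 g A) {u : G K} (σ τ : G K → G K)
    (hσ : ∀ a ∈ A, σ a ∈ A ∧ InLevelGroup 𝔫 ((σ a)⁻¹ * (u * a)))
    (hτ : ∀ b ∈ A, τ b ∈ A ∧ InLevelGroup 𝔫 ((τ b)⁻¹ * (u⁻¹ * b))) :
    ∀ a ∈ A, τ (σ a) = a := by
  intro a ha
  by_contra hne
  have h1 := (hτ (σ a) (hσ a ha).1).2
  have h2 := (hσ a ha).2
  have e : (τ (σ a))⁻¹ * a = ((τ (σ a))⁻¹ * (u⁻¹ * σ a)) * ((σ a)⁻¹ * (u * a)) := by group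
  refine hA.2.1 (τ (σ a)) (hτ (σ a) (hσ a ha).1).1 a ha hne ?_
  rw [e]
  exact H271.inLevelGroup_mul271 h1 h2

theorem dbl_perm_inv'281 {𝔫 : Ideal (𝓞 K)} {g : G K} {A : Finset (G K)}
    (hA : IsDblCosetSystem 𝔫 g A) {u : G K} (σ τ : G K → G K)
    (hσ : ∀ a ∈ A, σ a ∈ A ∧ InLevelGroup 𝔫 ((σ a)⁻¹ * (u * a)))
    (hτ : ∀ b ∈ A, τ b ∈ A ∧ InLevelGroup 𝔫 ((τ b)⁻¹ * (u⁻¹ * b))) :
    ∀ b ∈ A, σ (τ b) = b := by
  intro b hb
  by_contra hne
  have h1 := (hσ (τ b) (hτ b hb).1).2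
  have h2 := (hτ b hb).2
  have e : (σ (τ b))⁻¹ * b = ((σ (τ b))⁻¹ * (u * τ b)) * ((τ b)⁻¹ * (u⁻¹ * b)) := by group
  refine hA.2.1 (σ (τ b)) (hσ (τ b) (hτ b hb).1).1 b hb hne ?_
  rw [e]
  exact H271.inLevelGroup_mul271 h1 h2

/-- `[U g U] χ` is right invariant under `U(𝔫₀)`. -/
theorem level_inv_cosetOp281 {𝔫 : Ideal (𝓞 K)} {g : G K} {Hg : Finset (G K)}
    (hHg : IsDblCosetSystem 𝔫 g Hg) {χ : G K → ℂ} (hχ : IsRInv281 𝔫 χ) :
    IsRInv281 𝔫 (cosetOp Hg χ) := by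
  classical
  intro u hu x
  choose! σ hσ using dbl_perm281 hHg hu
  choose! τ hτ using dbl_perm281 hHg (inLevelGroup_inv281 hu)
  show ∑ a ∈ Hg, χ (x * u * a) = ∑ a ∈ Hg, χ (x * a)
  refine Finset.sum_nbij' σ τ (fun a ha => (hσ a ha).1) (fun a ha => (hτ a ha).1)
    (dbl_perm_inv281 hHg σ τ hσ hτ) (dbl_perm_inv'281 hHg σ τ hσ hτ) ?_
  intro a ha
  have e : x * u * a = (x * σ a) * ((σ a)⁻¹ * (u * a)) := by group
  rw [e]
  exact hχ _ (hσ a ha).2 _

/-- `[U g U] χ` is Iwahori invariant. -/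
theorem isIwInv_cosetOp281 {𝔫 : Ideal (𝓞 K)} {l : ℕ} {o : ℕ → HeightOneSpectrum (𝓞 K)}
    (ho : ∀ j < l, (o j).asIdeal ∣ 𝔫) {g : G K}
    (hg : ∀ j < l, TrivAtFin (o j) g) {Hg : Finset (G K)}
    (hHg : IsDblCosetSystem 𝔫 g Hg) {χ : G K → ℂ} (hχ : IsIwInv l o χ) :
    IsIwInv l o (cosetOp Hg χ) := by
  intro k hkinf hkout hkI x
  show ∑ a ∈ Hg, χ (x * k * a) = ∑ a ∈ Hg, χ (x * a)
  refine Finset.sum_congr rfl fun a ha => ?_
  obtain ⟨u₁, u₂, h1, h2, hau⟩ := hHg.1 a ha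
  have e : x * k * a = (x * a) * (a⁻¹ * k * a) := by group
  rw [e]
  refine hχ (a⁻¹ * k * a) (fun w => ?_) (fun v hv => ?_) (fun j hj => ?_) (x * a)
  · rw [trivAtInf_iff129, map_mul, map_mul, map_inv, (trivAtInf_iff129 w k).1 (hkinf w),
      mul_one, inv_mul_cancel]
  · rw [trivAtFin_iff129, map_mul, map_mul, map_inv, (trivAtFin_iff129 v k).1 (hkout v hv),
      mul_one, inv_mul_cancel]
  · have haI : T5.InIwahori (o j) a := by
      rw [hau]
      exact inIwahori_mul340 (inIwahori_mul340 (inIwahori_of_level281 (ho j hj) h1)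
        (inIwahori_of_triv281 (hg j hj))) (inIwahori_of_level281 (ho j hj) h2)
    exact inIwahori_mul340 (inIwahori_mul340 (inIwahori_inv340 haI) (hkI j hj)) haI

/-- **SUB-LEAF T7.L2.1.F3.D `DblInvC281`.** -/
theorem dblInvC281 (K : Type) [Field K] [NumberField K] : DblInvC281 K := by
  intro 𝔫₀ l o ho g hg1 hg2 Hg hHg
  refine ⟨fun a ha => ?_, fun χ hL hi =>
    ⟨level_inv_cosetOp281 hHg hL,
      isIwInv_cosetOp281 ho (fun j hj => hg2 (o j) (Or.inr ⟨j, hj, rfl⟩)) hHg hi⟩⟩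
  obtain ⟨u₁, u₂, h1, h2, hau⟩ := hHg.1 a ha
  refine ⟨trivAtInf_of_dbl281 hg1 h1 h2 hau, fun v hv => ?_⟩
  have hgv := isIntegralAt_of_triv281 (hg2 v (Or.inl hv))
  have hu1 := isIntegralAt_of_level281 h1 v
  have hu2 := isIntegralAt_of_level281 h2 v
  refine ⟨?_, ?_⟩
  · rw [hau, ← isInt129_finCompHom_iff, map_mul, map_mul]
    exact isInt129_mul (isInt129_mul hu1.1 hgv.1) hu2.1
  · rw [hau, mul_inv_rev, mul_inv_rev, ← isInt129_finCompHom_iff, map_mul, map_mul]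
    exact isInt129_mul hu2.2 (isInt129_mul hgv.2 hu1.2)

end Fermat.Agent.LT.T7.H281

end
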