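import Mathlib
import Fermat.Agent.LT.T7.H281.OpUpSpec
import Fermat.Agent.LT.T7.H277.ROps

/-!
# Row LT, tower T7, sub-leaf T7.L2.1.F3.A `RconvOpsC281` (helper281; spare of registry row 2437)

OFF-MAIN.  `rconvOpsC281 K : RconvOpsC281 K`, VERBATIM against `LT/T7/H281/OpUpSpec.lean`:
the asset `T7.H277.Rconv_up277` of helper277 (origin/helper277@d4a616ce6 `LT/T7/H277/ROps.lean`,
byte-identical copy with its closure `LT/T5/H277/*`) evaluated at a point.
No `sorry`, nothing assumed.
-/

set_option autoImplicit false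

open AutomorphicForm IsDedekindDomain NumberField MeasureTheory

noncomputable section

namespace Fermat.Agent.LT.T7.H281

open Fermat.Agent.LT.H556 Fermat.Agent.LT.H556.A0 Fermat.Agent.LT.T7 Fermat.Agent.LT.T7.H893

attribute [local instance] Fermat.Agent.LT.T5.instMeasurableSpaceG

/-- **SUB-LEAF T7.L2.1.F3.A `RconvOpsC281`.** -/
theorem rconvOpsC281 (K : Type) [Field K] [NumberField K] : RconvOpsC281 K := by
  intro μ F hF φ₁ φ₂ ψ h1c h1s h2c h2s hψ w Hg H z k m x
  exact congrFun (Fermat.Agent.LT.T7.H277.Rconv_up277 hF Hg w z H k m h1c h1s h2c h2s hψ) x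

end Fermat.Agent.LT.T7.H281

end
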