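import Mathlib
import Fermat.Agent.LT.T7.H281.OpUpSpec
import Fermat.Agent.LT.T7.H281.RconvOps
import Fermat.Agent.LT.T7.H281.TranslEig
import Fermat.Agent.LT.T7.H281.LevelInv
import Fermat.Agent.LT.T7.H510.ShiftInv
import Fermat.Agent.LT.T7.H271.Indep

/-!
# Row LT, tower T7, leaf T7.L2.1.F3 `OpUpC` (helper281, registry row 2251): CLOSED

OFF-MAIN.  `opUpC281 K K' : H893.OpUpC K K'`, VERBATIM against
`LT/T7/H893/SupplyFamSpec.lean` (helper893@5a34c9a24, sha256 32dee4c8), UNCONDITIONAL.
No `sorry`, nothing assumed.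

    opUpC281 = opUpC_of281 A B C D S I          (top: `OpUpSpec.lean`)

| sub-leaf | Prop | proof |
|---|---|---|
| A | `RconvOpsC281` | `rconvOpsC281` (`RconvOps.lean`; asset helper277 `T7/H277/ROps.lean`) |
| B | `TranslEigC281` | `translEigC281` (`TranslEig.lean`) |
| C | `IwInvC281` | `iwInvC281` (`LevelInv.lean`; asset helper340 `T7/H340/IwKit.lean`) |
| D | `DblInvC281` | `dblInvC281` (`LevelInv.lean`) |
| S | `ShiftInvC281` | `H510.shiftInvC_h510` (helper510@b6abc71f0 `T7/H510/ShiftInv.lean`) |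
| I | `IndepC281` | `H271.indepC271` (helper271@7225d1aa9 `T7/H271/Indep.lean`) |
-/

set_option autoImplicit false

open IsDedekindDomain NumberField

noncomputable section

namespace Fermat.Agent.LT.T7.H281

/-- **LEAF T7.L2.1.F3 `OpUpC`**, unconditional. -/
theorem opUpC281 (K K' : Type) [Field K] [NumberField K] [Field K'] [NumberField K']
    [Algebra K K'] : Fermat.Agent.LT.T7.H893.OpUpC K K' :=
  opUpC_of281 (rconvOpsC281 K') (translEigC281 K') (iwInvC281 K') (dblInvC281 K')
    (Fermat.Agent.LT.T7.H510.shiftInvC_h510 K') (Fermat.Agent.LT.T7.H271.indepC271 K')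

end Fermat.Agent.LT.T7.H281

end
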